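import Fermat.Agent.S17.NG.AuxFin

/-!
# Row 37 (S43), block G1, route H (heights), owner helper37: Northcott over a number field

Copy of `Fermat.Agent.S17.NG.finite_eta_le_aux` with "fixed by `G_L`" (`L` a number field) instead of
"fixed by `G_ℚ`".
-/

set_option autoImplicit false

noncomputable section

namespace Fermat.Agent.S43.G1H

open AlgebraicCurve Fermat.Agent.S24 Fermat.Agent.S24.FF Fermat.Agent.S27 ModularCurve Polynomial
open Fermat.Agent.S17 Fermat.Agent.S17.NG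

/-- every embedding of a subfield extends to an automorphism of `ℚ̄` -/
theorem exists_extend (L : IntermediateField ℚ Qb) (ι : L →ₐ[ℚ] Qb) :
    ∃ τ : GQ, ∀ x : L, τ (x : Qb) = ι x := by
  haveI := normal_rat_Qb
  haveI := isAlgebraic_rat_Qb
  let φ : Qb →ₐ[ℚ] Qb := ι.liftNormal Qb
  refine ⟨AlgEquiv.ofBijective φ (Algebra.IsAlgebraic.algHom_bijective φ), fun x => ?_⟩
  exact ι.liftNormal_commutes Qb x

/-- an element of a finite `G_L`-stable set has bounded degree over `ℚ` -/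
theorem natDegree_minpoly_le_card_mul (L : IntermediateField ℚ Qb) [FiniteDimensional ℚ L]
    (S : Finset Qb) (hS : ∀ σ : GQ, (∀ x ∈ L, σ x = x) → ∀ a ∈ S, σ a ∈ S) (α : Qb) (hα : α ∈ S) :
    (minpoly ℚ α).natDegree ≤ Fintype.card (L →ₐ[ℚ] Qb) * S.card := by
  classical
  choose τ hτ using exists_extend L
  let S' : Finset Qb := Finset.univ.biUnion fun ι : L →ₐ[ℚ] Qb => S.image (τ ι)
  have hstab : ∀ σ : GQ, ∀ a ∈ S', σ a ∈ S' := by
    intro σ a ha
    obtain ⟨ι, -, ha⟩ := Finset.mem_biUnion.1 ha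
    obtain ⟨s, hs, rfl⟩ := Finset.mem_image.1 ha
    let ι' : L →ₐ[ℚ] Qb := (σ : Qb →ₐ[ℚ] Qb).comp ι
    have hfix : ∀ x ∈ L, ((τ ι')⁻¹ * σ * τ ι) x = x := by
      intro x hx
      have h1 : τ ι x = ι ⟨x, hx⟩ := hτ ι ⟨x, hx⟩
      have h2 : τ ι' x = σ (ι ⟨x, hx⟩) := hτ ι' ⟨x, hx⟩
      show (τ ι')⁻¹ (σ (τ ι x)) = x
      rw [h1, ← h2]
      exact (τ ι').symm_apply_apply x
    refine Finset.mem_biUnion.2 ⟨ι', Finset.mem_univ _, Finset.mem_image.2
      ⟨((τ ι')⁻¹ * σ * τ ι) s, hS _ hfix s hs, ?_⟩⟩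
    show τ ι' ((τ ι')⁻¹ (σ (τ ι s))) = σ (τ ι s)
    exact (τ ι').apply_symm_apply _
  have hmem : α ∈ S' := by
    have hfix : ∀ x ∈ L, (τ L.val)⁻¹ x = x := by
      intro x hx
      have h1 : τ L.val x = x := hτ L.val ⟨x, hx⟩
      conv_lhs => rw [← h1]
      exact (τ L.val).symm_apply_apply x
    refine Finset.mem_biUnion.2 ⟨L.val, Finset.mem_univ _, Finset.mem_image.2
      ⟨(τ L.val)⁻¹ α, hS _ hfix α hα, ?_⟩⟩
    exact (τ L.val).apply_symm_apply _
  refine (natDegree_minpoly_le_card S' hstab α hmem).trans ?_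
  refine Finset.card_biUnion_le.trans ?_
  calc ∑ ι : L →ₐ[ℚ] Qb, (S.image (τ ι)).card ≤ ∑ _ι : L →ₐ[ℚ] Qb, S.card :=
        Finset.sum_le_sum fun ι _ => Finset.card_image_le
    _ = Fintype.card (L →ₐ[ℚ] Qb) * S.card := by
        rw [Finset.sum_const, smul_eq_mul, Finset.card_univ]

theorem finite_eta_le_field {F : Type} [Field F] [Algebra Qb F] [IsFF1 Qb F] [NonConst Qb F]
    (H : TP.HeightFn Qb) (hH : IsArith H) (P₀ : Place Qb F) (o : HtOut H P₀)
    (γ : GQ →* SemilinearAut Qb F) (hγ : ∀ (σ : GQ) (a : Qb), SemilinearAut.baseAut (γ σ) a = σ a)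
    (hP₀ : ∀ σ, γ σ • P₀ = P₀) (μ : ℕ) (x : F) (hx : x ∈ Lm P₀ μ) (hfix : ∀ σ, γ σ • x = x)
    (hnc : ¬ ∃ c : Qb, x = algebraMap Qb F c)
    (L : IntermediateField ℚ Qb) [FiniteDimensional ℚ L] (B : ℝ) :
    {z : Pic0 Qb F | (∀ σ : GQ, (∀ a ∈ L, σ a = a) → γ σ • z = z) ∧ o.eta z ≤ B}.Finite := by
  classical
  obtain ⟨C', hC'⟩ := o.point μ x hx
  set d : ℕ := Fintype.card (L →ₐ[ℚ] Qb) * genusFF Qb F with hd
  -- the finite set of values
  have hA : {α : Qb | (minpoly ℚ α).natDegree ≤ d ∧ H.h ![1, α] ≤ μ * B + C'}.Finite :=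
    finite_setOf_natDegree_le_height_le_of H hH (exists_height_coeff_prod_le H) _ _
  -- the finite set of points
  have hT : (⋃ c ∈ {α : Qb | (minpoly ℚ α).natDegree ≤ d ∧
      H.h ![1, α] ≤ μ * B + C'}, {P : Place Qb F | 0 ≤ P.ord x ∧ ev P x = c}).Finite :=
    hA.biUnion fun c _ => finite_setOf_ev_eq x hnc c
  -- the finite set of divisors
  have hE := finite_setOf_effective _ hT (genusFF Qb F)
  refine (hE.image fun E => - cls (E - (Divisor.degree E) • pt P₀)).subset ?_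
  rintro z ⟨hz, hB⟩
  have hred : IsRed P₀ (-z) (redDiv P₀ (-z)) := isRed_redDiv P₀ (-z)
  set E := redDiv P₀ (-z) with hEdef
  have hEfix : ∀ σ : GQ, (∀ a ∈ L, σ a = a) → γ σ • E = E := fun σ hσ =>
    smul_redDiv (γ σ) (hP₀ σ) (by rw [smul_neg, hz σ hσ])
  have hE0 : 0 ≤ E := hred.1
  have hdeg : Divisor.degree E ≤ genusFF Qb F := Fermat.Agent.S17.F.IsRed.degree_le hred
  have hbase : E P₀ = 0 := Fermat.Agent.S17.F.IsRed.apply_base hred
  refine ⟨E, ⟨hE0, ?_, hdeg⟩, ?_⟩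
  · intro P hP
    have hP' : P ∈ E.support := hP
    have hne : P ≠ P₀ := by
      rintro rfl
      exact (Finsupp.mem_support_iff.1 hP') hbase
    have hord : 0 ≤ P.ord x := Aux.ord_nonneg_of_mem_Lm hx hne
    have hhoo : o.hoo P ≤ B := le_trans (le_sumD o.hoo o.hoo_nonneg E hE0 P hP') hB
    have hh : H.h ![1, ev P x] ≤ μ * B + C' := by
      refine le_trans (hC' P hne) ?_
      have := mul_le_mul_of_nonneg_left hhoo (Nat.cast_nonneg (α := ℝ) μ)
      linarith
    -- the `G_L`-stable set of values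
    have hS : ∀ σ : GQ, (∀ a ∈ L, σ a = a) → ∀ a ∈ E.support.image (fun Q => ev Q x), σ a ∈
        E.support.image (fun Q => ev Q x) := by
      intro σ hσ a ha
      obtain ⟨Q, hQ, rfl⟩ := Finset.mem_image.1 ha
      refine Finset.mem_image.2 ⟨γ σ • Q, ?_, ?_⟩
      · rw [Finsupp.mem_support_iff] at hQ ⊢
        have h1 := SemilinearAut.divisor_smul_apply_smul (γ σ) E Q
        rw [hEfix σ hσ] at h1
        rwa [h1]
      · have h1 := ev_smul (γ σ) Q x
        rw [hfix σ, hγ] at h1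
        exact h1
    have hcard : (E.support.image (fun Q => ev Q x)).card ≤ genusFF Qb F := by
      have h1 : (E.support.image (fun Q => ev Q x)).card ≤ E.support.card := Finset.card_image_le
      have h2 := Aux.card_support_le E hE0
      omega
    have hmin := natDegree_minpoly_le_card_mul L _ hS (ev P x) (Finset.mem_image_of_mem _ hP')
    simp only [Set.mem_iUnion]
    exact ⟨ev P x, ⟨le_trans hmin (Nat.mul_le_mul_left _ hcard), hh⟩, hord, rfl⟩
  · show - cls (E - (Divisor.degree E) • pt P₀) = z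
    rw [hred.2.1, neg_neg]

end Fermat.Agent.S43.G1H

end
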