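import Fermat.Agent.S43.G1H.Abs
import Fermat.Agent.S43.G1H.North
import Fermat.Agent.S17.Top.Main
import Fermat.Agent.S17.FN.Main
import Fermat.Agent.S17.HT0.Arith
import Fermat.Agent.S17.W.Div
import Fermat.Agent.S17.W.OpenStab

/-!
# Row 37 (S43), block G1, route H (heights), owner helper37

`torsKill`: an additive endomorphism of `J₀(N)(ℚ̄)` which commutes with `G_ℚ` and kills the torsion is zero
(every level `N`).  Proof: for `z` fixed by `G_L` (`L` a number field) the elements `w_n = τ (z / n)` are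
well defined, fixed by `G_L`, and `m w_{nm} = w_n`; the canonical quadratic form of S17 and Northcott over `L`
show that all of them are torsion, in a finite set; if `e` is a common exponent, `τ z = e w_e = 0`.
-/

set_option autoImplicit false

noncomputable section

namespace Fermat.Agent.S43.G1H

open AlgebraicCurve Fermat.Agent.S24 Fermat.Agent.S24.FF Fermat.Agent.S27 ModularCurve
open Fermat.Agent.S17

theorem torsKill (N : ℕ) [NeZero N] (τ : JZero N →+ JZero N)
    (hG : ∀ (σ : GQ) (x : JZero N), τ (σ • x) = σ • τ x)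
    (ht : ∀ x : JZero N, (∃ n : ℕ, 0 < n ∧ n • x = 0) → τ x = 0) (z : JZero N) : τ z = 0 := by
  classical
  haveI : IsFF1 Qb (FN N) := Export.isFF1 N
  haveI : NonConst Qb (FN N) := ⟨⟨jF N, Formal.transcendental_jF N⟩⟩
  obtain ⟨o⟩ := FN.htOut HT0.heightFn (W.cusp N)
  have heta : ∀ x : JZero N, 0 ≤ o.eta x := fun x =>
    NG.sumD_nonneg o.hoo o.hoo_nonneg _ (NG.isRed_redDiv (W.cusp N) (-x)).1
  have hZ : ∀ x : JZero N, ∃ a ∈ o.Z, o.eta x - o.C ≤ o.f (x - a) := fun x =>
    o.lower x _ (NG.isRed_redDiv (W.cusp N) (-x))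
  obtain ⟨q, lam, C', hq, hX⟩ := exists_quadratic_add_additive o.f o.C o.cube
  have key := nonneg_and_le_of_translates q lam o.eta (o.Z.image fun a => -a) (o.C + C') hq heta (by
    intro x
    obtain ⟨a, ha, h⟩ := hZ x
    refine ⟨-a, Finset.mem_image_of_mem _ ha, ?_⟩
    have h2 := abs_le.1 (hX (x - a))
    rw [← sub_eq_add_neg]
    linarith [h2.1, h2.2])
  obtain ⟨hq0, C'', hle⟩ := key
  -- a number field fixing `z`
  obtain ⟨L, hL, hLz⟩ : ∃ L : IntermediateField ℚ Qb, FiniteDimensional ℚ L ∧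
      ∀ σ : GQ, (∀ a ∈ L, σ a = a) → σ • z = z := by
    obtain ⟨D, rfl⟩ := Pic0.mk_surjective z
    obtain ⟨L, hL, h⟩ := W.exists_finite_level_divisor N (D : Divisor Kbar (FN N))
    refine ⟨L, hL, fun σ hσ => ?_⟩
    show arithmeticGalois (modularFunctionFieldFull N) σ • (Pic0.mk D) = Pic0.mk D
    rw [SemilinearAut.pic0_smul_mk]
    refine congrArg Pic0.mk (Subtype.ext ?_)
    rw [SemilinearAut.coe_degZeroSMulHom]
    exact h σ hσ
  let S : Set (JZero N) := {x | ∀ σ : GQ, (∀ a ∈ L, σ a = a) → σ • x = x}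
  have hS : ∀ B : ℝ, {x | x ∈ S ∧ q x ≤ B}.Finite := by
    intro B
    obtain ⟨μ, x, hx, hfix, hnc⟩ := NG.exists_fixed_nonconst N
    refine (finite_eta_le_field HT0.heightFn HT0.isArith (W.cusp N) o
      (arithmeticGalois (modularFunctionFieldFull N)) (fun _ _ => rfl) (W.smul_cusp N) μ x hx hfix
      hnc L (3 * B + C'')).subset ?_
    rintro y ⟨hy, hB⟩
    refine ⟨fun σ hσ => hy σ hσ, ?_⟩
    have := hle y
    have hB' : q y ≤ B := hB
    linarith
  choose! w hw using fun (n : ℕ) (hn : 0 < n) => W.exists_nsmul_eq_JZero N n hn z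
  refine kill_of_northcott q hq hq0 S hS τ ht z w hw fun n hn σ hσ => ?_
  have h1 : τ (σ • w n - w n) = 0 := by
    refine ht _ ⟨n, hn, ?_⟩
    have h2 : n • (σ • w n) = σ • (n • w n) :=
      ((DistribMulAction.toAddMonoidHom (JZero N) σ).map_nsmul n (w n)).symm
    rw [nsmul_sub, h2, hw n hn, hLz σ hσ, sub_self]
  rw [map_sub, sub_eq_zero, hG] at h1
  exact h1

end Fermat.Agent.S43.G1H

end
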