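import Fermat.Agent.S17.Tools.AbstractNorthcott

/-!
# Row 37 (S43), block G1, route H (heights), owner helper37: the abstract argument

`q` an exact quadratic form `≥ 0` on an abelian group `G`, `S ⊆ G` a set on which Northcott holds.
* `torsion_of_divisible`: an element which is divisible by every `n > 0` with quotients in `S` is torsion.
* `kill_of_northcott`: an additive endomorphism `τ` killing the torsion kills every `z` such that
  `τ` maps all "fractions" `z / n` into `S`.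
-/

set_option autoImplicit false

namespace Fermat.Agent.S43.G1H

open Fermat.Agent.S17.AbstractNorthcott

variable {G : Type*} [AddCommGroup G] (q : G → ℝ)
  (hq : ∀ x y, q (x + y) + q (x - y) = 2 * q x + 2 * q y)

include hq in
theorem q_nsmul (x : G) (k : ℕ) : q (k • x) = (k : ℝ) ^ 2 * q x := by
  have h := q_nsmul_add q hq x 0 k
  rw [add_zero, add_zero, q_zero q hq] at h
  rw [h]
  ring

include hq in
theorem q_eq_zero_of_torsion (x : G) (m : ℕ) (hm : 0 < m) (hx : m • x = 0) : q x = 0 := by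
  have h := q_nsmul q hq x m
  rw [hx, q_zero q hq] at h
  have hm' : (0 : ℝ) < (m : ℝ) ^ 2 := by positivity
  rcases mul_eq_zero.1 h.symm with h | h
  · exact absurd h hm'.ne'
  · exact h

include hq in
theorem torsion_of_divisible (hnn : ∀ x, 0 ≤ q x) (S : Set G)
    (hS : ∀ B : ℝ, {z | z ∈ S ∧ q z ≤ B}.Finite) (z : G) (y : ℕ → G)
    (hy : ∀ n, 0 < n → y n ∈ S ∧ n • y n = z) : ∃ m : ℕ, 0 < m ∧ m • z = 0 := by
  classical
  have hfin := hS (q z)
  have hmem : ∀ n : ℕ, y (n + 1) ∈ {w | w ∈ S ∧ q w ≤ q z} := by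
    intro n
    obtain ⟨h1, h2⟩ := hy (n + 1) n.succ_pos
    refine ⟨h1, ?_⟩
    have h3 := q_nsmul q hq (y (n + 1)) (n + 1)
    rw [h2] at h3
    rw [h3]
    have h4 : (1 : ℝ) ≤ ((n + 1 : ℕ) : ℝ) ^ 2 := by
      have : (1 : ℝ) ≤ ((n + 1 : ℕ) : ℝ) := by
        push_cast
        linarith [Nat.cast_nonneg (α := ℝ) n]
      nlinarith
    nlinarith [hnn (y (n + 1))]
  haveI : Finite {w | w ∈ S ∧ q w ≤ q z} := hfin
  obtain ⟨a, b, hab, he⟩ := Finite.exists_ne_map_eq_of_infinite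
    (fun n : ℕ => (⟨y (n + 1), hmem n⟩ : {w | w ∈ S ∧ q w ≤ q z}))
  have he' : y (a + 1) = y (b + 1) := congrArg Subtype.val he
  have key : ∀ a b : ℕ, a < b → y (a + 1) = y (b + 1) → ∃ m : ℕ, 0 < m ∧ m • z = 0 := by
    intro a b hlt he'
    refine ⟨b - a, Nat.sub_pos_of_lt hlt, ?_⟩
    have h1 := (hy (a + 1) a.succ_pos).2
    have h2 := (hy (b + 1) b.succ_pos).2
    rw [← he'] at h2
    have h3 : (b - a) • y (a + 1) = 0 := by
      have h4 : (b + 1) • y (a + 1) = (b - a) • y (a + 1) + (a + 1) • y (a + 1) := by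
        rw [← add_smul]
        congr 1
        omega
      rw [h2, h1] at h4
      simpa using h4.symm
    rw [← h1, smul_comm, h3, smul_zero]
  rcases lt_or_gt_of_ne hab with h | h
  · exact key a b h he'
  · exact key b a h he'.symm

include hq in
theorem kill_of_northcott (hnn : ∀ x, 0 ≤ q x) (S : Set G)
    (hS : ∀ B : ℝ, {z | z ∈ S ∧ q z ≤ B}.Finite) (τ : G →+ G)
    (ht : ∀ x : G, (∃ n : ℕ, 0 < n ∧ n • x = 0) → τ x = 0)
    (z : G) (w : ℕ → G) (hw : ∀ n, 0 < n → n • w n = z) (hwS : ∀ n, 0 < n → τ (w n) ∈ S) :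
    τ z = 0 := by
  classical
  -- every `τ (w n)` is torsion
  have htor : ∀ n, 0 < n → ∃ m : ℕ, 0 < m ∧ m • τ (w n) = 0 := by
    intro n hn
    refine torsion_of_divisible q hq hnn S hS (τ (w n)) (fun m => τ (w (n * m))) fun m hm => ?_
    refine ⟨hwS _ (Nat.mul_pos hn hm), ?_⟩
    have h1 : τ (m • w (n * m) - w n) = 0 := by
      refine ht _ ⟨n, hn, ?_⟩
      rw [smul_sub, smul_smul, hw _ (Nat.mul_pos hn hm), hw n hn, sub_self]
    rw [map_sub, map_nsmul, sub_eq_zero] at h1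
    exact h1
  -- they lie in a finite set
  have hfin := hS 0
  have hmem : ∀ n, 0 < n → τ (w n) ∈ {x | x ∈ S ∧ q x ≤ 0} := by
    intro n hn
    obtain ⟨m, hm, h⟩ := htor n hn
    exact ⟨hwS n hn, (q_eq_zero_of_torsion q hq _ m hm h).le⟩
  -- a common exponent
  have hexp : ∃ e : ℕ, 0 < e ∧ ∀ n, 0 < n → e • τ (w n) = 0 := by
    let T : Finset G := hfin.toFinset.filter fun x => ∃ m : ℕ, 0 < m ∧ m • x = 0
    have hT : ∀ x ∈ T, ∃ m : ℕ, 0 < m ∧ m • x = 0 := fun x hx => (Finset.mem_filter.1 hx).2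
    choose! ord hord using hT
    refine ⟨∏ x ∈ T, ord x, Finset.prod_pos fun x hx => (hord x hx).1, fun n hn => ?_⟩
    have hx : τ (w n) ∈ T :=
      Finset.mem_filter.2 ⟨hfin.mem_toFinset.2 (hmem n hn), htor n hn⟩
    obtain ⟨c, hc⟩ := Finset.dvd_prod_of_mem ord hx
    rw [hc, mul_comm, mul_smul, (hord _ hx).2, smul_zero]
  obtain ⟨e, he, h⟩ := hexp
  rw [← hw e he, map_nsmul]
  exact h e he

end Fermat.Agent.S43.G1H
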